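/-
DS programme (S48, Deligne--Serre): CONTRACT between the two halves, version 1 (helper54).

* Geometric half (Gamma1 / X1(M) re-run of the weight-2 pipeline, weight-1 Eisenstein series,
  D--S lifting lemma) must deliver `C0` and `C1` below.
* Generic half (Rankin, D--S Prop 5.5, Chebotarev density, group theory, lifting, independence
  of l, irreducibility) must deliver `Goal` from `C0` and `C1`.

Everything in this file is a DEFINITION of a proposition (no proofs needed here), so that both
halves can work against fixed shapes.  All names live in `Fermat.Agent.DS.Iface`.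
-/
import Mathlib
import Fermat.Prelude.Def_GaloisRep_Residual
import Fermat.Prelude.Def_Deformations_MatrixRepresentation

set_option autoImplicit false

open CongruenceSubgroup Polynomial Filter Topology
open scoped MatrixGroups

namespace Fermat.Agent.DS.Iface

local notation "Γℚ" => (AlgebraicClosure ℚ ≃ₐ[ℚ] AlgebraicClosure ℚ)
local notation "ℤbar" => integralClosure ℤ ℂ

/-! ### The statement S48 split into hypothesis bundle and conclusion -/

/-- The hypothesis bundle of S48: `a_1 = 1` and the formal Hecke relations at primes `p ∤ N`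
with respect to the Dirichlet character `ε`. -/
structure IsEigen (N : ℕ) [NeZero N] (ε : DirichletCharacter ℂ N)
    (f : CuspForm (Gamma1 N) 1) : Prop where
  one : ModularFormClass.qCoeff f 1 = 1
  hecke : ∀ p : ℕ, p.Prime → ¬ p ∣ N → ∀ n : ℕ,
    ModularFormClass.qCoeff f (p * n) +
        ε (p : ZMod N) * (if p ∣ n then ModularFormClass.qCoeff f (n / p) else 0) =
      ModularFormClass.qCoeff f p * ModularFormClass.qCoeff f n

/-- The conclusion of S48, verbatim. -/
def Conclusion (N : ℕ) [NeZero N] (ε : DirichletCharacter ℂ N)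
    (f : CuspForm (Gamma1 N) 1) : Prop :=
  ∃ ρ : Γℚ →* GL (Fin 2) ℂ, GaloisFactorsThroughFiniteLevel ρ ∧
    (Deformation.matrixRepresentation ρ).IsIrreducible ∧
    ∀ p : ℕ, p.Prime → ¬ p ∣ N →
      ∀ A : ValuationSubring (AlgebraicClosure ℚ), A.LiesOverPrime p →
        (∀ σ ∈ A.inertiaSubgroupIn ℚ, ρ σ = 1) ∧
        ∀ σ : Γℚ, A.IsFrobeniusAt σ p →
          ((ρ σ : GL (Fin 2) ℂ) : Matrix (Fin 2) (Fin 2) ℂ).trace =
              ModularFormClass.qCoeff f p ∧
          ((ρ σ : GL (Fin 2) ℂ) : Matrix (Fin 2) (Fin 2) ℂ).det = ε (p : ZMod N)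

/-- S48 for all data. -/
def Goal : Prop :=
  ∀ (N : ℕ) [NeZero N] (ε : DirichletCharacter ℂ N) (f : CuspForm (Gamma1 N) 1),
    IsEigen N ε f → Conclusion N ε f

/-! ### C0 : mod-lambda representations (deliverable of the geometric half)

S29-shaped.  For all primes `l` outside a finite set, every field `k` of characteristic `l` and
every residue map `φ : Zbar → k`, there is a 2-dimensional representation over `k`, unramified
outside `N l`, with Frobenius characteristic polynomial `X^2 - φ(a_p) X + φ(ε(p))`.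
In particular `a_p` is an algebraic integer.  No semisimplicity is promised (the generic half
semisimplifies).  Route: `f * E_1(ω⁻¹) ≡ f (mod λ)` has weight 2, level `N l`, nebentypus
`ε ω⁻¹`; D--S lifting lemma (cf. `S49/CommAlg.exists_eigenvector_lift`) gives a genuine weight-2
eigenform `f'` on `Gamma1 (N l)` with the same eigenvalues mod `λ`; the Gamma1-version of the
S29 pipeline attaches `ρ_{f'} mod λ` with charpoly `X^2 - a_p(f') X + ε'(p) p`, and
`ε'(p) p ≡ ε(p) ω⁻¹(p) p ≡ ε(p)`.

Remark (nebentypus): `IsEigen` does NOT assume that `f` has nebentypus `ε`; it is a consequence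
(needed inside the geometric half only): writing `f = Σ_χ f_χ`, the true Hecke operator gives
`T_p f - a_p f = V_p h` with `h = Σ_χ (χ(p) - ε(p)) f_χ`; the space
`X = {h ∈ S_1(Gamma1 N) | V_p h ∈ S_1(Gamma1 N)}` is stable under the injective map `V_p`
(use `T_p V_p h = h + χ(p) V_p² h`), so `V_p` is onto `X` by finite-dimensionality and every
element of `X` has `q`-expansion supported on multiples of `p^n` for all `n`, hence `X = 0`. -/
def ModLambdaReps (N : ℕ) [NeZero N] (ε : DirichletCharacter ℂ N)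
    (f : CuspForm (Gamma1 N) 1) : Prop :=
  ∃ B : Finset ℕ, ∀ ℓ : ℕ, ℓ.Prime → ℓ ∉ B →
    ∀ (k : Type) [Field k] [CharP k ℓ] (φ : ℤbar →+* k),
      ∃ ρ : ResidualGaloisRep k, ∀ p : ℕ, p.Prime → ¬ p ∣ N * ℓ →
        ρ.IsUnramifiedAt p ∧
        ∀ A : ValuationSubring (AlgebraicClosure ℚ), A.LiesOverPrime p →
          ∀ σ : Γℚ, A.IsFrobeniusAt σ p →
            ∃ a e : ℤbar, (a : ℂ) = ModularFormClass.qCoeff f p ∧
              (e : ℂ) = ε (p : ZMod N) ∧
              LinearMap.charpoly (ρ.ρ σ) = X ^ 2 - C (φ a) * X + C (φ e)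

/-- C0 for all eigen data. -/
def C0 : Prop :=
  ∀ (N : ℕ) [NeZero N] (ε : DirichletCharacter ℂ N) (f : CuspForm (Gamma1 N) 1),
    IsEigen N ε f → ModLambdaReps N ε f

/-! ### C1 : stability of weight-one cusp forms under `Aut ℂ` (deliverable of the geometric half)

The level is allowed to grow to a fixed `N'` (harmless for the generic half: only finitely many
primes are lost in the Rankin bound, and finite-dimensionality of `S_1(Gamma1 N')` still bounds
the number of conjugates).  Suggested route: (i) weight 2: a `ℤ`-lattice in `S_2(Gamma1 M)` stable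
under Hecke operators (homology / Hecke duality, part of the re-run anyway) gives a basis with
rational `q`-expansions, hence stability in weight 2; (ii) weight 1 from weight 2 with the two
nowhere-vanishing (on the upper half plane) weight-1 forms with integer coefficients
`θ(z)^2` and `θ(z + 1/2)^2` (`θ = Σ q^{n²}`, Mathlib `jacobiTheta`), which have no common zero at
the cusps: `F := (f θ²)^σ / θ² = (f θ₁²)^σ / θ₁²` is holomorphic on the upper half plane, of
weight 1 and level `lcm(N, 8)`, vanishes at all cusps and has `q`-expansion `σ(a_n)`. -/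
def AutStable (N : ℕ) : Prop :=
  ∃ N' : ℕ, N' ≠ 0 ∧ ∀ (σ : ℂ ≃+* ℂ) (f : CuspForm (Gamma1 N) 1),
    ∃ g : CuspForm (Gamma1 N') 1,
      ∀ n : ℕ, ModularFormClass.qCoeff g n = σ (ModularFormClass.qCoeff f n)

/-- C1 for all levels. -/
def C1 : Prop := ∀ N : ℕ, N ≠ 0 → AutStable N

/-- The black box owed by the generic half. -/
def GenericHalf : Prop := C0 → C1 → Goal

/-! ### Dirichlet density vocabulary (generic half) -/

/-- `Σ_{p ∈ X, p prime} p^{-s}` for real `s`. -/
noncomputable def primeSum (X : Set ℕ) (s : ℝ) : ℝ :=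
  ∑' n : ℕ, Set.indicator {p : ℕ | p.Prime ∧ p ∈ X} (fun p : ℕ => (p : ℝ) ^ (-s)) n

/-- upper Dirichlet density of the set of primes in `X` is at most `η`. -/
def UpperDensityLE (X : Set ℕ) (η : ℝ) : Prop :=
  ∀ δ : ℝ, 0 < δ → ∀ᶠ s in 𝓝[>] (1 : ℝ), primeSum X s ≤ (η + δ) * Real.log (1 / (s - 1))

/-- lower Dirichlet density of the set of primes in `X` is at least `η`. -/
def LowerDensityGE (X : Set ℕ) (η : ℝ) : Prop :=
  ∀ δ : ℝ, 0 < δ → ∀ᶠ s in 𝓝[>] (1 : ℝ), (η - δ) * Real.log (1 / (s - 1)) ≤ primeSum X s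

/-! ### Shapes of the generic bricks -/

/-- B1 (Rankin).  A weight-one cusp form of any level `M` whose coefficients satisfy `a_1 = 1`
and the formal Hecke relations outside a finite set `S` of primes, for some unimodular function
`e` on primes, satisfies `Σ_{p ∉ S} |a_p|² p^{-s} ≤ log (1/(s-1)) + C` on `(1, 2]`
(sharp constant 1 in front of the logarithm). -/
def RankinBound : Prop :=
  ∀ (M : ℕ) [NeZero M] (g : CuspForm (Gamma1 M) 1) (S : Finset ℕ) (e : ℕ → ℂ),
    (∀ p : ℕ, p.Prime → p ∉ S → ‖e p‖ = 1) →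
    ModularFormClass.qCoeff g 1 = 1 →
    (∀ p : ℕ, p.Prime → p ∉ S → ∀ n : ℕ,
      ModularFormClass.qCoeff g (p * n) +
          e p * (if p ∣ n then ModularFormClass.qCoeff g (n / p) else 0) =
        ModularFormClass.qCoeff g p * ModularFormClass.qCoeff g n) →
    ∃ C : ℝ, ∀ s : ℝ, 1 < s → s ≤ 2 →
      (∑' n : ℕ, Set.indicator {p : ℕ | p.Prime ∧ p ∉ S}
        (fun p : ℕ => ‖ModularFormClass.qCoeff g p‖ ^ 2 * (p : ℝ) ^ (-s)) n) ≤
        Real.log (1 / (s - 1)) + C

/-- B2 (D--S Prop. 5.5).  Off a set of primes of arbitrarily small upper density, the `a_p`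
take finitely many values. -/
def FiniteValues : Prop :=
  ∀ (N : ℕ) [NeZero N] (ε : DirichletCharacter ℂ N) (f : CuspForm (Gamma1 N) 1),
    IsEigen N ε f → AutStable N →
    (∀ p : ℕ, p.Prime → ¬ p ∣ N → IsIntegral ℤ (ModularFormClass.qCoeff f p)) →
    ∀ η : ℝ, 0 < η → ∃ Y : Finset ℂ,
      UpperDensityLE {p : ℕ | ¬ p ∣ N ∧ ModularFormClass.qCoeff f p ∉ Y} η

/-- B3 (Chebotarev, lower-density form).  For a finite-level surjection `ρ : G_ℚ → G` onto a
finite group and any subset `S` of `G`, the primes having some Frobenius mapping into `S` have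
lower Dirichlet density at least `|S| / |G|`. -/
def ChebotarevLower : Prop :=
  ∀ (G : Type) [Group G] [Finite G] (ρ : Γℚ →* G),
    GaloisFactorsThroughFiniteLevel ρ → Function.Surjective ρ → ∀ S : Set G,
      LowerDensityGE
        {p : ℕ | ∃ (A : ValuationSubring (AlgebraicClosure ℚ)) (σ : Γℚ),
          A.LiesOverPrime p ∧ A.IsFrobeniusAt σ p ∧ ρ σ ∈ S}
        ((Nat.card S : ℝ) / Nat.card G)

/-- B5 (lifting).  A finite group of order prime to `l` inside `GL_2` of a field of
characteristic `l` lifts to `GL_2(ℂ)`, compatibly with a given residue map `φ` on traces and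
determinants, and faithfully. -/
def PrimeToEllLift : Prop :=
  ∀ (ℓ : ℕ) (_ : ℓ.Prime) (k : Type) [Field k] [CharP k ℓ] (φ : ℤbar →+* k)
    (G : Type) [Group G] [Finite G] (_ : ¬ ℓ ∣ Nat.card G) (r : G →* GL (Fin 2) k),
    (∀ g : G, ∃ t d : ℤ, ((r g : GL (Fin 2) k) : Matrix (Fin 2) (Fin 2) k).trace = (t : k) ∧
      ((r g : GL (Fin 2) k) : Matrix (Fin 2) (Fin 2) k).det = (d : k)) →
    ∃ R : G →* GL (Fin 2) ℂ, (∀ g : G, R g = 1 ↔ r g = 1) ∧
      ∀ g : G, ∃ t d : ℤbar,
        ((R g : GL (Fin 2) ℂ) : Matrix (Fin 2) (Fin 2) ℂ).trace = (t : ℂ) ∧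
        ((R g : GL (Fin 2) ℂ) : Matrix (Fin 2) (Fin 2) ℂ).det = (d : ℂ) ∧
        ((r g : GL (Fin 2) k) : Matrix (Fin 2) (Fin 2) k).trace = φ t ∧
        ((r g : GL (Fin 2) k) : Matrix (Fin 2) (Fin 2) k).det = φ d

end Fermat.Agent.DS.Iface
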