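/-
DS programme (S48): addendum to the contract file `DS/Iface.lean` (helper54).

`ChebotarevLowerSym` = the SYMMETRIC Chebotarev lower bound (only inverse-stable sets `S`), which is
what the CHEB squad proves and all that the Deligne--Serre argument consumes
(Lemma 8.1 is applied to `G \ (H ∪ H⁻¹)`, irreducibility to level sets of `|tr|²`).
Conjugation-stability of `S` is not needed as a hypothesis: the set of primes only depends on the
conjugation-closure of `S`, which is at least as large.
-/
import Mathlib
import Fermat.Agent.DS.Iface

set_option autoImplicit false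

namespace Fermat.Agent.DS.IfaceSym

open Fermat.Agent.DS.Iface

local notation "Γℚ" => (AlgebraicClosure ℚ ≃ₐ[ℚ] AlgebraicClosure ℚ)

/-- B3, symmetric form (binding shape for the CHEB squad's final theorem). -/
def ChebotarevLowerSym : Prop :=
  ∀ (G : Type) [Group G] [Finite G] (ρ : Γℚ →* G),
    GaloisFactorsThroughFiniteLevel ρ → Function.Surjective ρ → ∀ S : Set G,
      (∀ g ∈ S, g⁻¹ ∈ S) →
      LowerDensityGE
        {p : ℕ | ∃ (A : ValuationSubring (AlgebraicClosure ℚ)) (σ : Γℚ),
          A.LiesOverPrime p ∧ A.IsFrobeniusAt σ p ∧ ρ σ ∈ S}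
        ((Nat.card S : ℝ) / Nat.card G)

/-- The full form implies the symmetric form. -/
theorem chebotarevLowerSym_of_full (h : ChebotarevLower) : ChebotarevLowerSym :=
  fun G _ _ ρ hfl hsurj S _ => h G ρ hfl hsurj S

end Fermat.Agent.DS.IfaceSym
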